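/-
S37lib / Red / Curve  (helper2)

Riemann–Roch bookkeeping on a function field `F / K` with `IsCurveOfGenus K F g`
(all places rational, Riemann's theorem in large degree):
* `finrank_sub_single`        : `ℓ(D - Q) = ℓ(D) - 1` for `deg D ≥ 2g`;
* `exists_ord_eq_neg`         : divisors of degree `≥ 2g` are base point free;
* `le_of_riemannRochSpace_le` : `L(D₁) ≤ L(D₂)`, `deg D₁ ≥ 2g` ⇒ `D₁ ≤ D₂`;
* `eq_of_le_of_degree_eq`     : `D ≤ D'` with the same degree are equal;
* `exists_pair_no_common_zero`: a relatively base point free subspace of `L(D)` contains two sections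
  without common zero (`K` infinite);
* `pencil_span_eq`            : the base-point-free pencil trick,
  `s L(M) + t L(M) = L(D + M)` for `deg M - deg D > 2g - 2`.
-/
import Fermat.Agent.S18lib.Setup.CurveRR
import Fermat.Agent.S18lib.Setup.DivLemmas

set_option autoImplicit false

noncomputable section

namespace Fermat.Agent.S37lib

open AlgebraicCurve Module
open Fermat.Agent.S18lib

variable {K F : Type*} [Field K] [Field F] [Algebra K F] {g : ℕ}

namespace Curve

/-- the degree of a point -/
theorem degree_single_one (hF : IsCurveOfGenus K F g) (Q : Place K F) :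
    Divisor.degree (Finsupp.single Q (1 : ℤ)) = 1 := by
  rw [Divisor.degree_single, hF.deg_eq_one]; simp

theorem degree_eq_sum (hF : IsCurveOfGenus K F g) (D : Divisor K F) :
    Divisor.degree D = D.sum fun _ n => n := by
  induction D using Finsupp.induction with
  | zero => simp
  | single_add P n D hP hn ih =>
    rw [map_add, ih, Finsupp.sum_add_index' (fun _ => rfl) (fun _ _ _ => rfl),
      Divisor.degree_single, hF.deg_eq_one, Finsupp.sum_single_index rfl]
    simp

/-- an effective divisor has non-negative degree -/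
theorem degree_nonneg (hF : IsCurveOfGenus K F g) {D : Divisor K F} (hD : 0 ≤ D) :
    0 ≤ Divisor.degree D := by
  rw [degree_eq_sum hF]
  exact Finsupp.sum_nonneg fun P _ => Finsupp.le_def.1 hD P

/-- `D ≤ D'` with the same degree are equal -/
theorem eq_of_le_of_degree_eq (hF : IsCurveOfGenus K F g) {D D' : Divisor K F} (h : D ≤ D')
    (hdeg : Divisor.degree D = Divisor.degree D') : D = D' := by
  have h0 : 0 ≤ D' - D := sub_nonneg.2 h
  have hd : Divisor.degree (D' - D) = 0 := by rw [map_sub, hdeg, sub_self]
  rw [degree_eq_sum hF] at hd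
  have hz : ∀ P ∈ (D' - D).support, (D' - D) P = 0 := by
    have := (Finset.sum_eq_zero_iff_of_nonneg (s := (D' - D).support)
      (f := fun P => (D' - D) P) (fun P _ => Finsupp.le_def.1 h0 P)).1 hd
    exact this
  have : D' - D = 0 := by
    ext P
    by_cases hP : P ∈ (D' - D).support
    · exact hz P hP
    · exact Finsupp.notMem_support_iff.1 hP
  exact (sub_eq_zero.1 this).symm

variable (hF : IsCurveOfGenus K F g)

include hF in
/-- removing a point from a divisor of degree `≥ 2g` lowers the dimension by exactly one -/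
theorem finrank_sub_single {D : Divisor K F} (hD : 2 * (g : ℤ) ≤ Divisor.degree D)
    (Q : Place K F) :
    (finrank K (riemannRochSpace (D - Finsupp.single Q 1)) : ℤ) + 1 =
      finrank K (riemannRochSpace D) := by
  have h1 := hF.riemann_eq D (by linarith)
  have h2 := hF.riemann_eq (D - Finsupp.single Q 1) (by
    rw [map_sub, degree_single_one hF]; linarith)
  rw [h1, h2, map_sub, degree_single_one hF]; ring

include hF in
/-- divisors of degree `≥ 2g` are base point free -/
theorem exists_ord_eq_neg {D : Divisor K F} (hD : 2 * (g : ℤ) ≤ Divisor.degree D)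
    (Q : Place K F) : ∃ s ∈ riemannRochSpace D, s ≠ 0 ∧ Q.ord s = -D Q := by
  classical
  have := hF.finiteDimensional D
  have hle : riemannRochSpace (D - Finsupp.single Q 1) ≤ riemannRochSpace D :=
    riemannRochSpace_mono (sub_le_self _ (by
      rw [Finsupp.le_def]; intro P; rw [Finsupp.zero_apply, Finsupp.single_apply]
      split_ifs <;> simp))
  have hne : riemannRochSpace (D - Finsupp.single Q 1) ≠ riemannRochSpace D := by
    intro h
    have := finrank_sub_single hF hD Q
    rw [h] at this
    omega
  obtain ⟨s, hs, hns⟩ := SetLike.exists_of_lt (lt_of_le_of_ne hle hne)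
  have hs0 : s ≠ 0 := by
    rintro rfl
    exact hns (zero_mem _)
  refine ⟨s, hs, hs0, ?_⟩
  rw [mem_riemannRochSpace_iff] at hs hns
  push Not at hns
  obtain ⟨v, -, hv⟩ := hns
  have hvQ : v = Q := by
    by_contra hne'
    have := (hs v).resolve_left hs0
    rw [Finsupp.sub_apply, Finsupp.single_apply, if_neg (Ne.symm hne'), sub_zero] at hv
    linarith
  subst hvQ
  have h1 := (hs v).resolve_left hs0
  rw [Finsupp.sub_apply, Finsupp.single_apply, if_pos rfl] at hv
  omega

include hF in
/-- `L(D₁) ≤ L(D₂)` with `D₁` of degree `≥ 2g` forces `D₁ ≤ D₂` -/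
theorem le_of_riemannRochSpace_le {D₁ D₂ : Divisor K F}
    (hD : 2 * (g : ℤ) ≤ Divisor.degree D₁)
    (h : riemannRochSpace D₁ ≤ riemannRochSpace D₂) : D₁ ≤ D₂ := by
  rw [Finsupp.le_def]
  intro Q
  obtain ⟨s, hs, hs0, hord⟩ := exists_ord_eq_neg hF hD Q
  have h2 := (mem_riemannRochSpace_iff.1 (h hs) Q).resolve_left hs0
  linarith

include hF in
theorem eq_of_riemannRochSpace_eq {D₁ D₂ : Divisor K F}
    (hD₁ : 2 * (g : ℤ) ≤ Divisor.degree D₁) (hD₂ : 2 * (g : ℤ) ≤ Divisor.degree D₂)
    (h : riemannRochSpace D₁ = riemannRochSpace D₂) : D₁ = D₂ :=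
  le_antisymm (le_of_riemannRochSpace_le hF hD₁ h.le) (le_of_riemannRochSpace_le hF hD₂ h.ge)

end Curve

end Fermat.Agent.S37lib
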