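/-
S37lib / Red / Pencil  (helper2)

* `Curve.exists_pair_no_common_zero` : a subspace `V ≤ L(D)` without base point relative to `D`
  contains two sections without common zero relative to `D` (`K` infinite);
* `Curve.pencil_span_eq` : the base-point-free pencil trick: for `s, t ∈ L(D)` without common zero
  relative to `D` and `deg M - deg D > 2g - 2`, every element of `L(D + M)` is `s a + t b` with
  `a, b ∈ L(M)`.
-/
import Fermat.Agent.S37lib.Red.Curve
import Fermat.Agent.S18lib.Cech.CurveBasics

set_option autoImplicit false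

noncomputable section

namespace Fermat.Agent.S37lib

open AlgebraicCurve Module
open Fermat.Agent.S18lib

variable {K F : Type*} [Field K] [Field F] [Algebra K F] {g : ℕ}

namespace Curve

variable (hF : IsCurveOfGenus K F g)

include hF in
/-- a nonzero section of `L(D)` forces `deg D ≥ 0` -/
theorem degree_nonneg_of_mem {D : Divisor K F} {s : F} (hs : s ∈ riemannRochSpace D)
    (hs0 : s ≠ 0) : 0 ≤ Divisor.degree D := by
  have := hF.hasPrincipalDivisors
  have h1 : 0 ≤ divOf (K := K) s + D :=
    ((mem_riemannRochSpace_iff_divOf (K := K)).1 hs).resolve_left hs0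
  have h2 := degree_nonneg hF h1
  rw [map_add, degree_divOf, zero_add] at h2
  exact h2

include hF in
/-- the exceptional set of a section: `ord_Q s = -D Q` outside a finite set -/
theorem exists_finset_ord_eq {D : Divisor K F} {s : F} (hs0 : s ≠ 0) :
    ∃ Z : Finset (Place K F), ∀ Q, Q ∉ Z → Q.ord s = -D Q := by
  have := hF.hasPrincipalDivisors
  refine ⟨(divOf (K := K) s + D).support, fun Q hQ => ?_⟩
  have := Finsupp.notMem_support_iff.1 hQ
  rw [Finsupp.add_apply, divOf_apply hs0] at this
  linarith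

include hF in
/-- two sections without common zero in a relatively base point free subspace -/
theorem exists_pair_no_common_zero [Infinite K] {D : Divisor K F} (V : Submodule K F)
    (hV : V ≤ riemannRochSpace D) (hV0 : V ≠ ⊥)
    (hbpf : ∀ Q : Place K F, ¬ V ≤ riemannRochSpace (D - Finsupp.single Q 1)) :
    ∃ s ∈ V, ∃ t ∈ V, s ≠ 0 ∧ t ≠ 0 ∧ ∀ Q : Place K F, Q.ord s = -D Q ∨ Q.ord t = -D Q := by
  classical
  obtain ⟨s, hsV, hs0⟩ := (Submodule.ne_bot_iff V).1 hV0
  obtain ⟨Z, hZ⟩ := exists_finset_ord_eq hF (D := D) hs0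
  rcases Z.eq_empty_or_nonempty with hZe | ⟨Q₀, hQ₀⟩
  · exact ⟨s, hsV, s, hsV, hs0, hs0, fun Q => Or.inl (hZ Q (by simp [hZe]))⟩
  -- a section avoiding the subspaces `V ⊓ L(D - Q)`, `Q ∈ Z`
  have key : ∃ t ∈ V, ∀ Q ∈ Z, t ∉ riemannRochSpace (D - Finsupp.single Q 1) := by
    by_contra hcon
    push Not at hcon
    let p : Z → Subspace K V := fun Q =>
      (riemannRochSpace (D - Finsupp.single (Q : Place K F) 1)).comap V.subtype
    have hcov : ⋃ i, (p i : Set V) = Set.univ := by
      rw [Set.eq_univ_iff_forall]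
      intro x
      obtain ⟨Q, hQ, hx⟩ := hcon x.1 x.2
      exact Set.mem_iUnion.2 ⟨⟨Q, hQ⟩, hx⟩
    obtain ⟨i, hi⟩ := Subspace.exists_eq_top_of_iUnion_eq_univ hcov
    apply hbpf i.1
    intro x hx
    have : (⟨x, hx⟩ : V) ∈ p i := by rw [hi]; exact Submodule.mem_top
    exact this
  obtain ⟨t, htV, ht⟩ := key
  have ht0 : t ≠ 0 := by
    rintro rfl
    exact ht Q₀ hQ₀ (zero_mem _)
  refine ⟨s, hsV, t, htV, hs0, ht0, fun Q => ?_⟩
  by_cases hQ : Q ∈ Z
  · right
    have h1 := (mem_riemannRochSpace_iff.1 (hV htV) Q).resolve_left ht0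
    have h2 := ht Q hQ
    rw [mem_riemannRochSpace_iff] at h2
    push Not at h2
    obtain ⟨v, -, hv⟩ := h2
    have hvQ : v = Q := by
      by_contra hne'
      have := (mem_riemannRochSpace_iff.1 (hV htV) v).resolve_left ht0
      rw [Finsupp.sub_apply, Finsupp.single_apply, if_neg (Ne.symm hne'), sub_zero] at hv
      linarith
    subst hvQ
    rw [Finsupp.sub_apply, Finsupp.single_apply, if_pos rfl] at hv
    omega
  · left
    exact hZ Q hQ

include hF in
/-- **base-point-free pencil trick**: if `s, t ∈ L(D)` have no common zero relative to `D` and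
`deg M - deg D > 2g - 2`, then `s L(M) + t L(M) = L(D + M)`. -/
theorem pencil_span_eq {D M : Divisor K F} {s t : F} (hs : s ∈ riemannRochSpace D)
    (ht : t ∈ riemannRochSpace D) (hs0 : s ≠ 0) (ht0 : t ≠ 0)
    (hst : ∀ Q : Place K F, Q.ord s = -D Q ∨ Q.ord t = -D Q)
    (hM : 2 * (g : ℤ) - 2 < Divisor.degree M - Divisor.degree D)
    {φ : F} (hφ : φ ∈ riemannRochSpace (D + M)) :
    ∃ a ∈ riemannRochSpace M, ∃ b ∈ riemannRochSpace M, φ = s * a + t * b := by
  have hD0 : 0 ≤ Divisor.degree D := degree_nonneg_of_mem hF hs hs0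
  have := hF.finiteDimensional M
  have := hF.finiteDimensional (D + M)
  have := hF.finiteDimensional (M - D)
  -- the multiplication map
  obtain ⟨Φ, hΦ⟩ : ∃ Φ : (riemannRochSpace (K := K) (F := F) M × riemannRochSpace (K := K) (F := F) M)
      →ₗ[K] F, ∀ x, Φ x = s * (x.1 : F) + t * (x.2 : F) :=
    ⟨((LinearMap.mulLeft K s).comp (riemannRochSpace M).subtype).coprod
      ((LinearMap.mulLeft K t).comp (riemannRochSpace M).subtype), fun x => by
        simp [LinearMap.coprod_apply]⟩
  have hrange : LinearMap.range Φ ≤ riemannRochSpace (D + M) := by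
    rintro _ ⟨x, rfl⟩
    rw [hΦ]
    exact add_mem (mul_mem_riemannRochSpace hs x.1.2) (mul_mem_riemannRochSpace ht x.2.2)
  -- the kernel is the image of `L(M - D)` under `h ↦ (t h, - s h)`
  have hmem1 : ∀ h : riemannRochSpace (K := K) (F := F) (M - D),
      t * (h : F) ∈ riemannRochSpace (K := K) (F := F) M := fun h => by
    have := mul_mem_riemannRochSpace ht h.2
    rwa [add_sub_cancel] at this
  have hmem2 : ∀ h : riemannRochSpace (K := K) (F := F) (M - D),
      (-s) * (h : F) ∈ riemannRochSpace (K := K) (F := F) M := fun h => by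
    have := mul_mem_riemannRochSpace (neg_mem hs) h.2
    rwa [add_sub_cancel] at this
  obtain ⟨Θ, hΘ⟩ : ∃ Θ : riemannRochSpace (K := K) (F := F) (M - D) →ₗ[K]
      (riemannRochSpace (K := K) (F := F) M × riemannRochSpace (K := K) (F := F) M),
      ∀ h, ((Θ h).1 : F) = t * (h : F) ∧ ((Θ h).2 : F) = (-s) * (h : F) :=
    ⟨LinearMap.prod
      (LinearMap.codRestrict _ ((LinearMap.mulLeft K t).comp (riemannRochSpace (M - D)).subtype) hmem1)
      (LinearMap.codRestrict _ ((LinearMap.mulLeft K (-s)).comp (riemannRochSpace (M - D)).subtype)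
        hmem2), fun h => ⟨rfl, rfl⟩⟩
  have hker : LinearMap.ker Φ ≤ LinearMap.range Θ := by
    rintro ⟨a, b⟩ hx
    have hx' : s * (a : F) + t * (b : F) = 0 := by
      have := LinearMap.mem_ker.1 hx
      rwa [hΦ] at this
    have hmem : t⁻¹ * (a : F) ∈ riemannRochSpace (M - D) := by
      rcases eq_or_ne (a : F) 0 with ha0 | ha0
      · rw [ha0, mul_zero]; exact zero_mem _
      have hb0 : (b : F) ≠ 0 := by
        intro hb0
        rw [hb0, mul_zero, add_zero] at hx'
        exact (mul_ne_zero hs0 ha0) hx'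
      have hh : t⁻¹ * (a : F) = -(s⁻¹ * (b : F)) := by
        field_simp
        linear_combination hx'
      rw [mem_riemannRochSpace_iff]
      intro Q
      right
      have ha := (mem_riemannRochSpace_iff.1 a.2 Q).resolve_left ha0
      have hb := (mem_riemannRochSpace_iff.1 b.2 Q).resolve_left hb0
      rw [Finsupp.sub_apply]
      rcases hst Q with h | h
      · rw [hh, Cech.ord_neg, Q.ord_mul (inv_ne_zero hs0) hb0, Q.ord_inv, h]
        linarith
      · rw [Q.ord_mul (inv_ne_zero ht0) ha0, Q.ord_inv, h]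
        linarith
    refine ⟨⟨t⁻¹ * (a : F), hmem⟩, ?_⟩
    obtain ⟨h1, h2⟩ := hΘ ⟨t⁻¹ * (a : F), hmem⟩
    refine Prod.ext (Subtype.ext ?_) (Subtype.ext ?_)
    · rw [h1]; show t * (t⁻¹ * (a : F)) = a
      field_simp
    · rw [h2]; show (-s) * (t⁻¹ * (a : F)) = b
      field_simp
      linear_combination (-1 : F) * hx'
  have hkerle : finrank K (LinearMap.ker Φ) ≤
      finrank K (riemannRochSpace (K := K) (F := F) (M - D)) :=
    (Submodule.finrank_mono hker).trans (LinearMap.finrank_range_le Θ)
  have hrn := LinearMap.finrank_range_add_finrank_ker Φ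
  rw [Module.finrank_prod] at hrn
  have hrle : finrank K (LinearMap.range Φ) ≤ finrank K (riemannRochSpace (K := K) (F := F) (D + M)) :=
    Submodule.finrank_mono hrange
  -- Riemann's theorem for the three divisors
  have e1 := hF.riemann_eq M (by linarith)
  have e2 := hF.riemann_eq (M - D) (by rw [map_sub]; exact hM)
  have e3 := hF.riemann_eq (D + M) (by rw [map_add]; linarith)
  rw [map_sub] at e2
  rw [map_add] at e3
  have hfin : finrank K (LinearMap.range Φ) = finrank K (riemannRochSpace (K := K) (F := F) (D + M)) := by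
    have : (finrank K (LinearMap.range Φ) : ℤ) + finrank K (LinearMap.ker Φ)
        = finrank K (riemannRochSpace (K := K) (F := F) M) + finrank K (riemannRochSpace (K := K) (F := F) M) := by exact_mod_cast hrn
    have h2 : (finrank K (LinearMap.ker Φ) : ℤ) ≤
        finrank K (riemannRochSpace (K := K) (F := F) (M - D)) := by exact_mod_cast hkerle
    have h3 : (finrank K (LinearMap.range Φ) : ℤ) ≤
        finrank K (riemannRochSpace (K := K) (F := F) (D + M)) := by exact_mod_cast hrle
    have : (finrank K (LinearMap.range Φ) : ℤ) =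
        finrank K (riemannRochSpace (K := K) (F := F) (D + M)) := by
      apply le_antisymm h3
      show (finrank K (riemannRochSpace (K := K) (F := F) (D + M)) : ℤ) ≤ _
      have e1' : (finrank K (riemannRochSpace (K := K) (F := F) M) : ℤ) = Divisor.degree M + 1 - g := e1
      linarith
    exact_mod_cast this
  have heq : LinearMap.range Φ = riemannRochSpace (D + M) :=
    Submodule.eq_of_le_of_finrank_eq hrange hfin
  rw [← heq] at hφ
  obtain ⟨x, rfl⟩ := hφ
  exact ⟨x.1, x.1.2, x.2, x.2.2, hΦ x⟩

end Curve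

end Fermat.Agent.S37lib
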