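/-
S37lib / Red / RedSub  (helper2)   — block (B2), part 1

`redSub G W` : the `k`-subspace `{ f̄ | f ∈ W ∩ O }` of `Fk`, for an `L`-subspace `W` of `F`
(reduction of the lattice `W ∩ O`).

* `finrank_redSub` : `dim_k redSub W = dim_L W` (orthonormal bases);
* `mul_mem_redSub_rr` : `redSub L(D) · redSub L(D') ⊆ redSub L(D + D')`.
-/
import Fermat.Agent.S37lib.Red.Pencil
import Fermat.Agent.S18lib.Weak.GenusEq

set_option autoImplicit false

noncomputable section

namespace Fermat.Agent.S37lib.B2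

open AlgebraicCurve Module
open Fermat.Agent.S18lib

variable {L : Type*} [Field L] {A : ValuationSubring L}
variable {F : Type*} [Field F] [Algebra L F]
variable {Fk : Type*} [Field Fk] [Algebra (IsLocalRing.ResidueField A) Fk]

local notation "k" => IsLocalRing.ResidueField A

/-- the reduction of the lattice `W ∩ O` -/
def redSub (G : GaussDatum A F Fk) (W : Submodule L F) : Submodule k Fk where
  carrier := {φ | ∃ f ∈ W, f ∈ G.O ∧ G.redF f = φ}
  add_mem' := by
    rintro _ _ ⟨f, hfW, hfO, rfl⟩ ⟨f', hfW', hfO', rfl⟩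
    exact ⟨f + f', W.add_mem hfW hfW', G.O.add_mem _ _ hfO hfO', G.redF_add hfO hfO'⟩
  zero_mem' := ⟨0, W.zero_mem, G.O.zero_mem, G.redF_zero⟩
  smul_mem' := by
    rintro c _ ⟨f, hfW, hfO, rfl⟩
    obtain ⟨a, rfl⟩ := IsLocalRing.residue_surjective c
    refine ⟨algebraMap L F (a : L) * f, ?_, G.smul_mem a hfO, G.redF_smul a hfO⟩
    rw [← Algebra.smul_def]
    exact W.smul_mem _ hfW

variable (G : GaussDatum A F Fk)

theorem mem_redSub {W : Submodule L F} {φ : Fk} :
    φ ∈ redSub G W ↔ ∃ f ∈ W, f ∈ G.O ∧ G.redF f = φ := Iff.rfl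

theorem redF_mem_redSub {W : Submodule L F} {f : F} (hfW : f ∈ W) (hfO : f ∈ G.O) :
    G.redF f ∈ redSub G W := ⟨f, hfW, hfO, rfl⟩

theorem redSub_mono {W W' : Submodule L F} (h : W ≤ W') : redSub G W ≤ redSub G W' := by
  rintro _ ⟨f, hfW, hfO, rfl⟩
  exact ⟨f, h hfW, hfO, rfl⟩

variable {G}

/-- `redSub W` is spanned by the reduction of an orthonormal basis of `W` -/
theorem exists_redSub_eq_span (hO : G.HasOrthonormalBases) (W : Submodule L F)
    [FiniteDimensional L W] :
    ∃ b : Fin (finrank L W) → Fk, LinearIndependent k b ∧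
      redSub G W = Submodule.span k (Set.range b) := by
  obtain ⟨b, hbW, hb⟩ := hO W inferInstance
  have hli := hb.linearIndependent
  have hspanW : Submodule.span L (Set.range b) = W := by
    apply Submodule.eq_of_le_of_finrank_eq
    · rw [Submodule.span_le]
      rintro _ ⟨i, rfl⟩
      exact hbW i
    · rw [finrank_span_eq_card hli, Fintype.card_fin]
  refine ⟨fun i => G.redF (b i), hb.2, le_antisymm ?_ ?_⟩
  · rintro _ ⟨f, hfW, hfO, rfl⟩
    obtain ⟨a, rfl⟩ := hb.exists_coeff_of_mem_span (by rw [hspanW]; exact hfW) hfO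
    rw [hb.redF_sum a]
    exact Submodule.sum_mem _ fun i _ =>
      Submodule.smul_mem _ _ (Submodule.subset_span ⟨i, rfl⟩)
  · rw [Submodule.span_le]
    rintro _ ⟨i, rfl⟩
    exact ⟨b i, hbW i, hb.1 i, rfl⟩

theorem finiteDimensional_redSub (hO : G.HasOrthonormalBases) (W : Submodule L F)
    [FiniteDimensional L W] : FiniteDimensional k (redSub G W) := by
  obtain ⟨b, -, hb⟩ := exists_redSub_eq_span hO W
  rw [hb]
  exact FiniteDimensional.span_of_finite k (Set.finite_range b)

/-- **dimension of the reduced lattice** -/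
theorem finrank_redSub (hO : G.HasOrthonormalBases) (W : Submodule L F)
    [FiniteDimensional L W] : finrank k (redSub G W) = finrank L W := by
  obtain ⟨b, hli, hb⟩ := exists_redSub_eq_span hO W
  rw [hb, finrank_span_eq_card hli, Fintype.card_fin]

/-- multiplicativity on Riemann–Roch spaces -/
theorem mul_mem_redSub_rr {D D' D'' : Divisor L F} (hD : D + D' = D'') {φ ψ : Fk}
    (hφ : φ ∈ redSub G (riemannRochSpace D)) (hψ : ψ ∈ redSub G (riemannRochSpace D')) :
    φ * ψ ∈ redSub G (riemannRochSpace D'') := by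
  obtain ⟨f, hfW, hfO, rfl⟩ := hφ
  obtain ⟨f', hfW', hfO', rfl⟩ := hψ
  refine ⟨f * f', ?_, G.O.mul_mem _ _ hfO hfO', G.redF_mul hfO hfO'⟩
  rw [← hD]
  exact mul_mem_riemannRochSpace hfW hfW'

end Fermat.Agent.S37lib.B2
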