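/-
S37lib / Red / Good  (helper2)   — block (B2), part 2

Context `Ctx G Y Yb g`: a weak datum `G`, two curves of the SAME genus `g`, divisors `Y` on `F` and
`Yb` on `Fk` of the same positive degree such that reduction maps `O ∩ L(mY)` ONTO `L_k(m Yb)` in large
degree (this is what a frame `(y, θ)` with `Y = (y)_∞`, `Yb = (ȳ)_∞` provides).

`GoodAt n E Eb` : `redSub L(nY - E) = L_k(n Yb - Eb)`, `deg Eb = deg E`, `deg (nY - E) ≥ 2g`.

* `goodAt_zero`         : `GoodAt m 0 0` for `m` large;
* `GoodAt.add`          : additivity (base-point-free pencil trick);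
* `exists_goodAt_single`: every point `P` of `F` has a reduction `Q`: `GoodAt n P Q`.
-/
import Fermat.Agent.S37lib.Red.RedSub

set_option autoImplicit false

noncomputable section

namespace Fermat.Agent.S37lib.B2

open AlgebraicCurve Module
open Fermat.Agent.S18lib

variable {L : Type*} [Field L] {A : ValuationSubring L}
variable {F : Type*} [Field F] [Algebra L F]
variable {Fk : Type*} [Field Fk] [Algebra (IsLocalRing.ResidueField A) Fk]

local notation "k" => IsLocalRing.ResidueField A

/-- the context of the construction of the place map -/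
structure Ctx (G : GaussDatum A F Fk) (Y : Divisor L F) (Yb : Divisor k Fk) (g : ℕ) : Prop where
  orth : G.HasOrthonormalBases
  curve : IsCurveOfGenus L F g
  curvek : IsCurveOfGenus k Fk g
  deg_eq : Divisor.degree Yb = Divisor.degree Y
  deg_pos : 0 < Divisor.degree Y
  red_mem : ∀ (m : ℕ) (f : F), f ∈ G.O → f ∈ riemannRochSpace ((m : ℤ) • Y) →
    G.redF f ∈ riemannRochSpace ((m : ℤ) • Yb)
  lift : ∀ (m : ℕ), 2 * (g : ℤ) - 2 < m * Divisor.degree Y →
    ∀ φ ∈ riemannRochSpace ((m : ℤ) • Yb),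
      ∃ f : F, f ∈ G.O ∧ f ∈ riemannRochSpace ((m : ℤ) • Y) ∧ G.redF f = φ

variable {G : GaussDatum A F Fk} {Y : Divisor L F}
  {Yb : Divisor (IsLocalRing.ResidueField A) Fk} {g : ℕ}

/-- `redSub L(nY - E) = L_k(n Yb - Eb)` in the stable range -/
def GoodAt (G : GaussDatum A F Fk) (Y : Divisor L F) (Yb : Divisor k Fk) (g : ℕ)
    (n : ℕ) (E : Divisor L F) (Eb : Divisor k Fk) : Prop :=
  Divisor.degree Eb = Divisor.degree E ∧
  2 * (g : ℤ) ≤ n * Divisor.degree Y - Divisor.degree E ∧
  redSub G (riemannRochSpace ((n : ℤ) • Y - E)) = riemannRochSpace ((n : ℤ) • Yb - Eb)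

omit [Field Fk] [Algebra (IsLocalRing.ResidueField A) Fk] in
theorem degree_nsmul_sub (Y : Divisor L F) (n : ℕ) (E : Divisor L F) :
    Divisor.degree ((n : ℤ) • Y - E) = n * Divisor.degree Y - Divisor.degree E := by
  rw [map_sub, map_zsmul, smul_eq_mul]

namespace Ctx

theorem degree_nsmul_sub_k (C : Ctx G Y Yb g) (n : ℕ) (Eb : Divisor k Fk) :
    Divisor.degree ((n : ℤ) • Yb - Eb) = n * Divisor.degree Y - Divisor.degree Eb := by
  rw [map_sub, map_zsmul, smul_eq_mul, C.deg_eq]

/-- dimension of `redSub L(nY - E)` in the stable range -/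
theorem finrank_redSub_rr (C : Ctx G Y Yb g) {n : ℕ} {E : Divisor L F}
    (h : 2 * (g : ℤ) - 2 < n * Divisor.degree Y - Divisor.degree E) :
    (finrank k (redSub G (riemannRochSpace ((n : ℤ) • Y - E))) : ℤ) =
      n * Divisor.degree Y - Divisor.degree E + 1 - g := by
  have := C.curve.finiteDimensional ((n : ℤ) • Y - E)
  rw [finrank_redSub C.orth, C.curve.riemann_eq _ (by rw [degree_nsmul_sub]; exact h),
    degree_nsmul_sub]

theorem finrank_rr_k (C : Ctx G Y Yb g) {n : ℕ} {Eb : Divisor k Fk}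
    (h : 2 * (g : ℤ) - 2 < n * Divisor.degree Y - Divisor.degree Eb) :
    (finrank k (riemannRochSpace ((n : ℤ) • Yb - Eb)) : ℤ) =
      n * Divisor.degree Y - Divisor.degree Eb + 1 - g := by
  rw [C.curvek.riemann_eq _ (by rw [C.degree_nsmul_sub_k]; exact h), C.degree_nsmul_sub_k]

/-- (R2): `redSub L(mY) = L_k(m Yb)` in large degree -/
theorem goodAt_zero (C : Ctx G Y Yb g) {m : ℕ} (hm : 2 * (g : ℤ) ≤ m * Divisor.degree Y) :
    GoodAt G Y Yb g m 0 0 := by
  refine ⟨by simp, by simpa using hm, ?_⟩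
  rw [sub_zero, sub_zero]
  apply le_antisymm
  · rintro _ ⟨f, hfW, hfO, rfl⟩
    exact C.red_mem m f hfO hfW
  · intro φ hφ
    obtain ⟨f, hfO, hfW, rfl⟩ := C.lift m (by linarith) φ hφ
    exact ⟨f, hfW, hfO, rfl⟩

end Ctx

end Fermat.Agent.S37lib.B2

namespace Fermat.Agent.S37lib.Curve

open AlgebraicCurve Module
open Fermat.Agent.S18lib

variable {K F : Type*} [Field K] [Field F] [Algebra K F] {g : ℕ}

/-- a complete linear system of degree `≥ 2g` contains two sections without common zero -/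
theorem exists_pair_complete (hF : IsCurveOfGenus K F g) [Infinite K] {D : Divisor K F}
    (hD : 2 * (g : ℤ) ≤ Divisor.degree D) :
    ∃ s ∈ riemannRochSpace D, ∃ t ∈ riemannRochSpace D, s ≠ 0 ∧ t ≠ 0 ∧
      ∀ Q : Place K F, Q.ord s = -D Q ∨ Q.ord t = -D Q := by
  classical
  have := hF.infinite_places
  obtain ⟨Q₀⟩ := (inferInstance : Nonempty (Place K F))
  refine exists_pair_no_common_zero hF (riemannRochSpace D) le_rfl ?_ ?_
  · obtain ⟨s, hs, hs0, -⟩ := exists_ord_eq_neg hF hD Q₀
    exact (Submodule.ne_bot_iff _).2 ⟨s, hs, hs0⟩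
  · intro Q hle
    obtain ⟨s, hs, hs0, hord⟩ := exists_ord_eq_neg hF hD Q
    have := (mem_riemannRochSpace_iff.1 (hle hs) Q).resolve_left hs0
    rw [Finsupp.sub_apply, Finsupp.single_apply, if_pos rfl] at this
    omega

end Fermat.Agent.S37lib.Curve

namespace Fermat.Agent.S37lib.B2

open AlgebraicCurve Module
open Fermat.Agent.S18lib

variable {L : Type*} [Field L] {A : ValuationSubring L}
variable {F : Type*} [Field F] [Algebra L F]
variable {Fk : Type*} [Field Fk] [Algebra (IsLocalRing.ResidueField A) Fk]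

local notation "k" => IsLocalRing.ResidueField A

variable {G : GaussDatum A F Fk} {Y : Divisor L F}
  {Yb : Divisor (IsLocalRing.ResidueField A) Fk} {g : ℕ}

/-- **Lemma A** (additivity, by the base-point-free pencil trick) -/
theorem GoodAt.add (C : Ctx G Y Yb g) [Infinite k] {n n' : ℕ} {E E' : Divisor L F}
    {Eb Eb' : Divisor k Fk} (h : GoodAt G Y Yb g n E Eb) (h' : GoodAt G Y Yb g n' E' Eb')
    (hbig : 2 * (g : ℤ) - 2 < (n' * Divisor.degree Y - Divisor.degree E') -
      (n * Divisor.degree Y - Divisor.degree E)) :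
    GoodAt G Y Yb g (n + n') (E + E') (Eb + Eb') := by
  obtain ⟨hd, hn, hJ⟩ := h
  obtain ⟨hd', hn', hJ'⟩ := h'
  have hdivk : ((n + n' : ℕ) : ℤ) • Yb - (Eb + Eb')
      = ((n : ℤ) • Yb - Eb) + ((n' : ℤ) • Yb - Eb') := by
    rw [Nat.cast_add, add_smul]; abel
  have hdivL : ((n : ℤ) • Y - E) + ((n' : ℤ) • Y - E')
      = ((n + n' : ℕ) : ℤ) • Y - (E + E') := by
    rw [Nat.cast_add, add_smul]; abel
  refine ⟨by rw [map_add, map_add, hd, hd'], ?_, ?_⟩
  · rw [map_add]; push_cast; linarith
  -- inclusion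
  have hle : riemannRochSpace (((n + n' : ℕ) : ℤ) • Yb - (Eb + Eb')) ≤
      redSub G (riemannRochSpace (((n + n' : ℕ) : ℤ) • Y - (E + E'))) := by
    intro φ hφ
    rw [hdivk] at hφ
    obtain ⟨s, hs, t, ht, hs0, ht0, hst⟩ := Curve.exists_pair_complete C.curvek
      (D := (n : ℤ) • Yb - Eb) (by rw [C.degree_nsmul_sub_k, hd]; exact hn)
    obtain ⟨a, ha, b, hb, rfl⟩ := Curve.pencil_span_eq C.curvek hs ht hs0 ht0 hst
      (by rw [C.degree_nsmul_sub_k, C.degree_nsmul_sub_k, hd, hd']; exact hbig) hφ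
    rw [← hJ] at hs ht
    rw [← hJ'] at ha hb
    exact Submodule.add_mem _ (mul_mem_redSub_rr hdivL hs ha) (mul_mem_redSub_rr hdivL ht hb)
  -- dimensions
  have := C.curve.finiteDimensional (((n + n' : ℕ) : ℤ) • Y - (E + E'))
  have := finiteDimensional_redSub C.orth
    (riemannRochSpace (((n + n' : ℕ) : ℤ) • Y - (E + E')))
  symm
  apply Submodule.eq_of_le_of_finrank_eq hle
  have h1 := C.finrank_redSub_rr (n := n + n') (E := E + E')
    (by rw [map_add]; push_cast; linarith)
  have h2 := C.finrank_rr_k (n := n + n') (Eb := Eb + Eb')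
    (by rw [map_add, hd, hd']; push_cast; linarith)
  rw [map_add] at h1 h2
  rw [hd, hd'] at h2
  have h3 := h2.trans h1.symm
  exact_mod_cast h3

omit [Field Fk] [Algebra (IsLocalRing.ResidueField A) Fk] in
theorem single_one_nonneg (P : Place L F) : (0 : Divisor L F) ≤ Finsupp.single P (1 : ℤ) := by
  classical
  rw [Finsupp.le_def]
  intro v
  rw [Finsupp.zero_apply, Finsupp.single_apply]
  split_ifs <;> simp

/-- **Lemma P**: every point `P` of `F` has a reduction `Q` -/
theorem exists_goodAt_single (C : Ctx G Y Yb g) [Infinite k] {n : ℕ}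
    (hn : 2 * (g : ℤ) + 1 ≤ n * Divisor.degree Y) (P : Place L F) :
    ∃ Q : Place k Fk, GoodAt G Y Yb g n (Finsupp.single P 1) (Finsupp.single Q 1) := by
  classical
  have hδ := C.deg_pos
  have hP1 : Divisor.degree (Finsupp.single P (1 : ℤ)) = 1 := Curve.degree_single_one C.curve P
  set V := redSub G (riemannRochSpace ((n : ℤ) • Y - Finsupp.single P 1)) with hV
  have hVle : V ≤ riemannRochSpace ((n : ℤ) • Yb) := by
    have h0 := (C.goodAt_zero (m := n) (by linarith)).2.2
    rw [sub_zero, sub_zero] at h0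
    rw [← h0]
    exact redSub_mono G (riemannRochSpace_mono (sub_le_self _ (single_one_nonneg P)))
  have hVdim : (finrank k V : ℤ) = n * Divisor.degree Y - g := by
    have := C.finrank_redSub_rr (n := n) (E := Finsupp.single P 1) (by rw [hP1]; linarith)
    rw [this, hP1]; ring
  have := C.curve.finiteDimensional ((n : ℤ) • Y - Finsupp.single P 1)
  have hfdV : FiniteDimensional k V := finiteDimensional_redSub C.orth _
  -- key claim
  have key : ∃ Q : Place k Fk, V ≤ riemannRochSpace ((n : ℤ) • Yb - Finsupp.single Q 1) := by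
    by_contra hcon
    push Not at hcon
    have hV0 : V ≠ ⊥ := by
      intro h0
      rw [h0, finrank_bot] at hVdim
      push_cast at hVdim
      linarith
    obtain ⟨s, hs, t, ht, hs0, ht0, hst⟩ :=
      Curve.exists_pair_no_common_zero C.curvek V hVle hV0 hcon
    obtain ⟨m, hm⟩ : ∃ m : ℕ, m = n + 2 * g := ⟨_, rfl⟩
    have hmZ : (m : ℤ) = n + 2 * g := by rw [hm]; push_cast; ring
    have hgδ : (0 : ℤ) ≤ 2 * g * (Divisor.degree Y - 1) :=
      mul_nonneg (by positivity) (by linarith)
    have hmδ : 2 * (g : ℤ) ≤ m * Divisor.degree Y := by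
      rw [hmZ]; nlinarith
    have h0m := (C.goodAt_zero (m := m) hmδ).2.2
    rw [sub_zero, sub_zero] at h0m
    have hle : riemannRochSpace (((n + m : ℕ) : ℤ) • Yb) ≤
        redSub G (riemannRochSpace (((n + m : ℕ) : ℤ) • Y - Finsupp.single P 1)) := by
      intro φ hφ
      have hφ' : φ ∈ riemannRochSpace ((n : ℤ) • Yb + (m : ℤ) • Yb) := by
        rwa [Nat.cast_add, add_smul] at hφ
      obtain ⟨a, ha, b, hb, rfl⟩ := Curve.pencil_span_eq C.curvek (hVle hs) (hVle ht) hs0 ht0 hst
        (by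
          rw [map_zsmul, map_zsmul, smul_eq_mul, smul_eq_mul, C.deg_eq, hmZ]
          nlinarith) hφ'
      rw [← h0m] at ha hb
      have hdiv : ((n : ℤ) • Y - Finsupp.single P 1) + (m : ℤ) • Y
          = ((n + m : ℕ) : ℤ) • Y - Finsupp.single P 1 := by
        rw [Nat.cast_add, add_smul]; abel
      exact Submodule.add_mem _ (mul_mem_redSub_rr hdiv hs ha) (mul_mem_redSub_rr hdiv ht hb)
    have := C.curve.finiteDimensional (((n + m : ℕ) : ℤ) • Y - Finsupp.single P 1)
    have := finiteDimensional_redSub C.orth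
      (riemannRochSpace (((n + m : ℕ) : ℤ) • Y - Finsupp.single P 1))
    have hmono := Submodule.finrank_mono hle
    have hnm : (0 : ℤ) ≤ m * Divisor.degree Y := by linarith
    have h1 := C.finrank_redSub_rr (n := n + m) (E := Finsupp.single P 1)
      (by rw [hP1]; push_cast; linarith)
    have h2 := C.finrank_rr_k (n := n + m) (Eb := 0)
      (by rw [map_zero]; push_cast; linarith)
    rw [sub_zero, map_zero] at h2
    rw [hP1] at h1
    have h3 : (finrank k (riemannRochSpace (((n + m : ℕ) : ℤ) • Yb)) : ℤ) ≤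
        finrank k (redSub G (riemannRochSpace (((n + m : ℕ) : ℤ) • Y - Finsupp.single P 1))) := by
      exact_mod_cast hmono
    rw [h1, h2] at h3
    linarith
  obtain ⟨Q, hQ⟩ := key
  refine ⟨Q, ?_, ?_, ?_⟩
  · rw [hP1, Curve.degree_single_one C.curvek]
  · rw [hP1]; linarith
  · have := C.curvek.finiteDimensional ((n : ℤ) • Yb - Finsupp.single Q 1)
    apply Submodule.eq_of_le_of_finrank_eq hQ
    have h2 := C.finrank_rr_k (n := n) (Eb := Finsupp.single Q 1)
      (by rw [Curve.degree_single_one C.curvek]; linarith)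
    rw [Curve.degree_single_one C.curvek] at h2
    have h3 : (finrank k V : ℤ) =
        finrank k (riemannRochSpace ((n : ℤ) • Yb - Finsupp.single Q 1)) := by
      rw [hVdim, h2]; ring
    exact_mod_cast h3

end Fermat.Agent.S37lib.B2
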