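/-
S37lib / Red / PlaceMap  (helper2)   — block (B2), part 3

`Good E Eb` : `GoodAt n E Eb` for all large `n`.  The place map `placeMap C : Place L F → Place k Fk`
(the reduction of points) and the theorem `good_mapDomain`:
`redSub L(nY - E) = L_k(n Yb - r_* E)` for every effective divisor `E` and all large `n`.
-/
import Fermat.Agent.S37lib.Red.Good

set_option autoImplicit false

noncomputable section

namespace Fermat.Agent.S37lib.B2

open AlgebraicCurve Module
open Fermat.Agent.S18lib

variable {L : Type*} [Field L] {A : ValuationSubring L}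
variable {F : Type*} [Field F] [Algebra L F]
variable {Fk : Type*} [Field Fk] [Algebra (IsLocalRing.ResidueField A) Fk]

local notation "k" => IsLocalRing.ResidueField A

variable {G : GaussDatum A F Fk} {Y : Divisor L F}
  {Yb : Divisor (IsLocalRing.ResidueField A) Fk} {g : ℕ}

/-- `GoodAt n E Eb` for all large `n` -/
def Good (G : GaussDatum A F Fk) (Y : Divisor L F) (Yb : Divisor k Fk) (g : ℕ)
    (E : Divisor L F) (Eb : Divisor k Fk) : Prop :=
  ∃ n₀ : ℕ, ∀ n, n₀ ≤ n → GoodAt G Y Yb g n E Eb

theorem good_zero (C : Ctx G Y Yb g) : Good G Y Yb g 0 0 := by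
  refine ⟨2 * g, fun n hn => C.goodAt_zero ?_⟩
  have h1 : (2 * g : ℤ) ≤ n := by exact_mod_cast hn
  have h2 := C.deg_pos
  have h3 : (0 : ℤ) ≤ n * (Divisor.degree Y - 1) := mul_nonneg (by positivity) (by linarith)
  nlinarith

theorem good_add_of_goodAt (C : Ctx G Y Yb g) [Infinite k] {n : ℕ} {E E' : Divisor L F}
    {Eb Eb' : Divisor k Fk} (h : GoodAt G Y Yb g n E Eb) (h' : Good G Y Yb g E' Eb') :
    Good G Y Yb g (E + E') (Eb + Eb') := by
  obtain ⟨n₀', hn₀'⟩ := h'
  obtain ⟨B, hB⟩ : ∃ B : ℕ, B = (2 * (g : ℤ) - 1 + Divisor.degree E' +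
      (n * Divisor.degree Y - Divisor.degree E)).toNat := ⟨_, rfl⟩
  refine ⟨n + max n₀' B, fun N hN => ?_⟩
  obtain ⟨n', rfl⟩ := Nat.exists_eq_add_of_le (le_trans (Nat.le_add_right _ _) hN)
  have hn' : max n₀' B ≤ n' := by omega
  apply GoodAt.add C h (hn₀' n' (le_trans (le_max_left _ _) hn'))
  have hB' : (B : ℤ) ≤ n' := by exact_mod_cast le_trans (le_max_right _ _) hn'
  have h1 := Int.self_le_toNat (2 * (g : ℤ) - 1 + Divisor.degree E' +
      (n * Divisor.degree Y - Divisor.degree E))
  rw [← hB] at h1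
  have h2 := C.deg_pos
  have h3 : (0 : ℤ) ≤ n' * (Divisor.degree Y - 1) := mul_nonneg (by positivity) (by linarith)
  nlinarith

theorem Good.add (C : Ctx G Y Yb g) [Infinite k] {E E' : Divisor L F}
    {Eb Eb' : Divisor k Fk} (h : Good G Y Yb g E Eb) (h' : Good G Y Yb g E' Eb') :
    Good G Y Yb g (E + E') (Eb + Eb') := by
  obtain ⟨n₀, hn₀⟩ := h
  exact good_add_of_goodAt C (hn₀ n₀ le_rfl) h'

theorem good_of_goodAt (C : Ctx G Y Yb g) [Infinite k] {n : ℕ} {E : Divisor L F}
    {Eb : Divisor k Fk} (h : GoodAt G Y Yb g n E Eb) : Good G Y Yb g E Eb := by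
  have := good_add_of_goodAt C h (good_zero C)
  rwa [add_zero, add_zero] at this

theorem exists_good_single (C : Ctx G Y Yb g) [Infinite k] (P : Place L F) :
    ∃ Q : Place k Fk, Good G Y Yb g (Finsupp.single P 1) (Finsupp.single Q 1) := by
  obtain ⟨Q, hQ⟩ := exists_goodAt_single C (n := 2 * g + 1) (by
    have h2 := C.deg_pos
    have h3 : (0 : ℤ) ≤ (2 * g + 1 : ℕ) * (Divisor.degree Y - 1) :=
      mul_nonneg (by positivity) (by linarith)
    push_cast at h3 ⊢
    nlinarith) P
  exact ⟨Q, good_of_goodAt C hQ⟩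

/-- **the place map** (reduction of points) -/
def placeMap (C : Ctx G Y Yb g) [Infinite k] (P : Place L F) : Place k Fk :=
  (exists_good_single C P).choose

theorem good_placeMap (C : Ctx G Y Yb g) [Infinite k] (P : Place L F) :
    Good G Y Yb g (Finsupp.single P 1) (Finsupp.single (placeMap C P) 1) :=
  (exists_good_single C P).choose_spec

theorem good_single_nat (C : Ctx G Y Yb g) [Infinite k] (P : Place L F) (m : ℕ) :
    Good G Y Yb g (Finsupp.single P (m : ℤ)) (Finsupp.single (placeMap C P) (m : ℤ)) := by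
  induction m with
  | zero => simpa using good_zero C
  | succ m ih =>
    rw [Nat.cast_succ, Finsupp.single_add, Finsupp.single_add]
    exact ih.add C (good_placeMap C P)

/-- **reduction of effective divisors**: `redSub L(nY - E) = L_k(n Yb - r_* E)` for `n` large -/
theorem good_mapDomain (C : Ctx G Y Yb g) [Infinite k] (E : Divisor L F) (hE : 0 ≤ E) :
    Good G Y Yb g E (Finsupp.mapDomain (placeMap C) E) := by
  classical
  induction E using Finsupp.induction with
  | zero => simpa using good_zero C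
  | single_add P b f hP hb ih =>
    have hfP : f P = 0 := Finsupp.notMem_support_iff.1 hP
    have hb0 : 0 ≤ b := by
      have := Finsupp.le_def.1 hE P
      rwa [Finsupp.zero_apply, Finsupp.add_apply, Finsupp.single_eq_same, hfP, add_zero] at this
    have hf0 : 0 ≤ f := by
      rw [Finsupp.le_def]
      intro v
      by_cases hv : v = P
      · subst hv; rw [hfP]; simp
      · have := Finsupp.le_def.1 hE v
        rwa [Finsupp.zero_apply, Finsupp.add_apply, Finsupp.single_apply, if_neg (Ne.symm hv),
          zero_add] at this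
    obtain ⟨m, rfl⟩ := Int.eq_ofNat_of_zero_le hb0
    rw [Finsupp.mapDomain_add, Finsupp.mapDomain_single]
    exact (good_single_nat C P m).add C (ih hf0)

end Fermat.Agent.S37lib.B2
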