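/-
S37lib / Red / Main  (helper2)   — block (B2), part 4

**Conservation of principal divisors** for the place map of `Red/PlaceMap`, and the upgrade of a
weak datum with a frame and EQUAL GENUS to a full reduction datum:

  `B2.exists_redDatum : ∃ D : RedDatum A F Fk, D.toGaussDatum = G`.
-/
import Fermat.Agent.S37lib.Red.PlaceMap

set_option autoImplicit false

noncomputable section

namespace Fermat.Agent.S37lib.B2

open AlgebraicCurve Module IntermediateField
open Fermat.Agent.S18lib

variable {L : Type*} [Field L] {A : ValuationSubring L}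
variable {F : Type*} [Field F] [Algebra L F]
variable {Fk : Type*} [Field Fk] [Algebra (IsLocalRing.ResidueField A) Fk]

local notation "k" => IsLocalRing.ResidueField A

variable {G : GaussDatum A F Fk} {Y : Divisor L F}
  {Yb : Divisor (IsLocalRing.ResidueField A) Fk} {g : ℕ}

/-- **conservation**: `r_* div f = div f̄` for `f ∈ O` with `f̄ ≠ 0` -/
theorem mapDomain_divOf (C : Ctx G Y Yb g) [Infinite k] [HasPrincipalDivisors L F]
    [HasPrincipalDivisors k Fk] {f : F} (hf : G.redF f ≠ 0) :
    Finsupp.mapDomain (placeMap C) (divOf (K := L) f) = divOf (K := k) (G.redF f) := by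
  classical
  have hfO : f ∈ G.O := G.mem_of_redF_ne_zero hf
  have hf0 : f ≠ 0 := by
    rintro rfl
    exact hf G.redF_zero
  obtain ⟨n0, h0⟩ := good_mapDomain C (zerosOf (K := L) f) (zerosOf_nonneg f)
  obtain ⟨ni, hi⟩ := good_mapDomain C (polesOf (K := L) f) (polesOf_nonneg f)
  obtain ⟨n, hn⟩ : ∃ n : ℕ, n = max n0 ni := ⟨_, rfl⟩
  obtain ⟨hd0, hn0, hJ0⟩ := h0 n (by rw [hn]; exact le_max_left _ _)
  obtain ⟨hdi, hni, hJi⟩ := hi n (by rw [hn]; exact le_max_right _ _)
  have hE : zerosOf (K := L) f = divOf (K := L) f + polesOf (K := L) f := by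
    rw [← zerosOf_sub_polesOf]; abel
  have hdegE : Divisor.degree (zerosOf (K := L) f) = Divisor.degree (polesOf (K := L) f) := by
    rw [hE, map_add, degree_divOf, zero_add]
  obtain ⟨R0, hR0⟩ : ∃ R0, R0 = Finsupp.mapDomain (placeMap C) (zerosOf (K := L) f) := ⟨_, rfl⟩
  obtain ⟨Ri, hRi⟩ : ∃ Ri, Ri = Finsupp.mapDomain (placeMap C) (polesOf (K := L) f) := ⟨_, rfl⟩
  rw [← hR0] at hd0 hJ0
  rw [← hRi] at hdi hJi
  -- the inclusion
  have hle : riemannRochSpace ((n : ℤ) • Yb - Ri - divOf (K := k) (G.redF f)) ≤
      riemannRochSpace ((n : ℤ) • Yb - R0) := by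
    intro ψ hψ
    have h1 : ψ * (G.redF f)⁻¹ ∈ riemannRochSpace ((n : ℤ) • Yb - Ri) := by
      have := mul_mem_riemannRochSpace hψ (inv_mem_riemannRochSpace_divOf (K := k) hf)
      rwa [sub_add_cancel] at this
    rw [← hJi] at h1
    obtain ⟨h, hhW, hhO, hh⟩ := h1
    have h2 : f * h ∈ riemannRochSpace ((n : ℤ) • Y - zerosOf (K := L) f) := by
      have hfm : f ∈ riemannRochSpace (-divOf (K := L) f) :=
        Cech.mem_rr_neg_of_div hf0 (fun v => divOf_apply hf0 v)
      have := mul_mem_riemannRochSpace hfm hhW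
      have hdiv : -divOf (K := L) f + ((n : ℤ) • Y - polesOf (K := L) f)
          = (n : ℤ) • Y - zerosOf (K := L) f := by
        rw [hE]; abel
      rwa [hdiv] at this
    have h3 : G.redF (f * h) = ψ := by
      rw [G.redF_mul hfO hhO, hh, mul_comm ψ, ← mul_assoc, mul_inv_cancel₀ hf, one_mul]
    rw [← hJ0, ← h3]
    exact redF_mem_redSub G h2 (G.O.mul_mem _ _ hfO hhO)
  have hdeg1 : Divisor.degree ((n : ℤ) • Yb - Ri - divOf (K := k) (G.redF f))
      = n * Divisor.degree Y - Divisor.degree (polesOf (K := L) f) := by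
    rw [map_sub, C.degree_nsmul_sub_k, degree_divOf, sub_zero, hdi]
  have hdeg2 : Divisor.degree ((n : ℤ) • Yb - R0)
      = n * Divisor.degree Y - Divisor.degree (polesOf (K := L) f) := by
    rw [C.degree_nsmul_sub_k, hd0, hdegE]
  have hle' := Curve.le_of_riemannRochSpace_le C.curvek (by rw [hdeg1]; exact hni) hle
  have heq := Curve.eq_of_le_of_degree_eq C.curvek hle' (by rw [hdeg1, hdeg2])
  -- conclude
  have h4 : Finsupp.mapDomain (placeMap C) (divOf (K := L) f) + Ri = R0 := by
    rw [hR0, hRi, hE, Finsupp.mapDomain_add]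
  have h5 : divOf (K := k) (G.redF f) = R0 - Ri := by
    have h6 : (n : ℤ) • Yb - Ri - divOf (K := k) (G.redF f) - ((n : ℤ) • Yb - R0) = 0 := by
      rw [heq, sub_self]
    have h7 : divOf (K := k) (G.redF f) = R0 - Ri -
        ((n : ℤ) • Yb - Ri - divOf (K := k) (G.redF f) - ((n : ℤ) • Yb - R0)) := by abel
    rw [h7, h6, sub_zero]
  rw [h5, ← h4]; abel

/-- **(B2)**: a weak datum with a frame, equal genus on both sides and degree preservation is the
underlying weak datum of a full reduction datum (with a degree preserving place map satisfying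
conservation of principal divisors). -/
theorem exists_redDatum [CharZero L] [Infinite k] [HasPrincipalDivisors L F]
    [HasPrincipalDivisors k Fk] (G : GaussDatum A F Fk) {y : F} {n : ℕ}
    {θ : Fin n → F} (hfr : WFrame.IsFrameFamily G y θ) (hy : Transcendental L y)
    [FiniteDimensional L⟮y⟯ F] {g : ℕ} (hF : IsCurveOfGenus L F g) (hFk : IsCurveOfGenus k Fk g)
    (hdeg : Divisor.degree (polesOf (K := L) y) = Divisor.degree (polesOf (K := k) (G.redF y))) :
    ∃ D : RedDatum A F Fk, D.toGaussDatum = G := by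
  have C : Ctx G (polesOf (K := L) y) (polesOf (K := k) (G.redF y)) g :=
    { orth := hfr.hasOrthonormalBases
      curve := hF
      curvek := hFk
      deg_eq := hdeg.symm
      deg_pos := GaussDatum.degree_polesOf_pos hF hy
      red_mem := fun m f hfO hfW => G.redF_mem_riemannRochSpace_polesOf hfr hy m hfO hfW
      lift := fun m hm φ hφ => G.exists_lift_polesOf hfr hy hF hFk hdeg m hm hφ }
  refine ⟨{ O := G.O
            algebraMap_mem_iff := G.algebraMap_mem_iff
            red := G.red
            red_surjective := G.red_surjective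
            red_algebraMap := G.red_algebraMap
            exists_const_mul_isUnit := G.exists_const_mul_isUnit
            r := placeMap C
            deg_r := fun P => by rw [hFk.deg_eq_one, hF.deg_eq_one]
            mapDomain_div := ?_ }, rfl⟩
  intro y' hy' D hD Q
  have hD' : D = divOf (K := L) (y' : F) := by
    ext P
    rw [hD P, divOf_apply']
  have hred : G.redF (y' : F) = G.red y' := G.redF_of_mem y'.2
  rw [hD', mapDomain_divOf C (by rw [hred]; exact hy'), divOf_apply', hred]

end Fermat.Agent.S37lib.B2
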